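import Fermat.Agent.H49.TR.UnramTrivTR
import Fermat.Agent.H57.CFT.UnramCocycle

/-!
# P-CFT / RECIP-Q, row TR-UNRTRIV (helper49): unconditional form

`unramTrivU : Fermat.Agent.H25.Recip.UnramTrivStatement`, from `unramTrivTR` and helper57's
`unramCocycleStd : UnramCocycleStatement`.
-/

set_option autoImplicit false

namespace Fermat.Agent.H49.TR

/-- **[TR-UNRTRIV]**, unconditional: unramified classes with unit values are trivial. -/
theorem unramTrivU : Fermat.Agent.H25.Recip.UnramTrivStatement :=
  unramTrivTR Fermat.Agent.H57.CFT.unramCocycleStd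

end Fermat.Agent.H49.TR
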