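import Mathlib
import Fermat.Agent.H49.CFT.UnramHensel
import Fermat.Agent.H81.Local.EF
import Fermat.Agent.H79.GlobalRamified

/-!
# P-CFT / RECIP-Q, row TR-UNRTRIV (helper49), part 1: the inertia group of a local field

`E` a finite extension of `K_v = ℚ̄^{D_q}` inside `ℚ̄`.

* `exists_root_near` (abstract henselian setting): every unit of `E` is congruent to a
  `(Q - 1)`-th root of unity of `E` (Teichmüller representative);
* `exists_rootOfUnity_near` : every unit `x` of `ℚ̄` at `padicPlace q` is congruent to a root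
  of unity lying in some `unramExt q E f`, `f > 0`;
* `mem_inertia_of_fixes_unramExt` : an element of `G_E` fixing all `unramExt q E m`, `m > 0`,
  lies in the inertia group of `padicPlace q`.
-/

set_option autoImplicit false
set_option linter.style.haveILetI false
set_option maxSynthPendingDepth 3

namespace Fermat.Agent.H49.TR

open Polynomial IntermediateField Fermat.Agent.H49.Unram Fermat.Agent.H81.Local

open scoped NNReal

local notation "Qb" => AlgebraicClosure ℚ
local notation "GQ" => (AlgebraicClosure ℚ ≃ₐ[ℚ] AlgebraicClosure ℚ)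

section Abstract

variable {F Om : Type*} [Field F] [Field Om] [Algebra F Om]
  {Γ₀ : Type*} [LinearOrderedCommGroupWithZero Γ₀] {w : Valuation Om Γ₀} {Q' : ℕ}

/-- **Teichmüller representative**: in a henselian field with residue cardinality `Q'` every
unit is congruent to a `(Q' - 1)`-th root of unity. -/
theorem exists_root_near (h : ResidueDatum F Om w Q') (hhens : HenselK F w) {x : F}
    (hx1 : w (algebraMap F Om x) = 1) :
    ∃ a : F, (algebraMap F Om a) ^ (Q' - 1) = 1 ∧ w (algebraMap F Om (a - x)) < 1 := by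
  have hQ1 := one_lt_Q h
  set N := Q' - 1 with hNdef
  have hN0 : N ≠ 0 := by omega
  have hN : Q'.Coprime N := by
    have := coprime_pow_sub_one Q' 1 (by omega) one_pos
    rwa [pow_one] at this
  let c : OE F w := ⟨x, hx1.le⟩
  have hpow := rho_pow_Q h c
  have hne : rho F w c ≠ 0 := by
    rw [Ne, rho_eq_zero_iff]
    exact not_lt.2 hx1.ge
  have hpowN : rho F w c ^ N = 1 := by
    have h2 : Q' = N + 1 := by omega
    rw [h2, pow_succ] at hpow
    exact mul_right_cancel₀ hne (by rw [hpow, one_mul])
  have hxN : w ((algebraMap F Om x) ^ N - 1) < 1 := by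
    have h3 : rho F w (c ^ N - 1) = 0 := by rw [map_sub, map_pow, hpowN, map_one, sub_self]
    rw [rho_eq_zero_iff] at h3
    have h4 : algebraMap F Om ((c ^ N - 1 : OE F w) : F) = (algebraMap F Om x) ^ N - 1 := by
      simp [c]
    rw [h4] at h3
    exact h3
  -- Hensel for `X ^ N - 1`
  have hcoeff : ∀ i, w (algebraMap F Om ((X ^ N - 1 : F[X]).coeff i)) ≤ 1 := by
    intro i
    rw [coeff_sub, coeff_X_pow, coeff_one, map_sub]
    refine (Valuation.map_sub w _ _).trans (max_le ?_ ?_)
    · split_ifs <;> simp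
    · split_ifs <;> simp
  have heval : w (algebraMap F Om ((X ^ N - 1 : F[X]).eval x)) < 1 := by
    rw [eval_sub, eval_pow, eval_X, eval_one, map_sub, map_pow, map_one]
    exact hxN
  have hder : w (algebraMap F Om ((X ^ N - 1 : F[X]).derivative.eval x)) = 1 := by
    rw [derivative_sub, derivative_one, sub_zero, derivative_X_pow, eval_mul, eval_pow, eval_X,
      eval_C, map_mul, map_pow, map_natCast, map_mul, map_pow, hx1, one_pow, mul_one]
    exact val_natCast_eq_one h hN
  obtain ⟨a, ha0, hac⟩ := hhens (X ^ N - 1) (monic_X_pow_sub_C 1 hN0) hcoeff x hx1.le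
    heval hder
  refine ⟨a, ?_, hac⟩
  rw [eval_sub, eval_pow, eval_X, eval_one, sub_eq_zero] at ha0
  rw [← map_pow, ha0, map_one]

end Abstract

section Qbar

variable {q : ℕ} [Fact q.Prime]

/-- Membership in the maximal ideal of `padicPlace q` in terms of `qVal`. -/
theorem mem_nonunits_padicPlace_iff (x : Qb) :
    x ∈ (padicPlace q).nonunits ↔ qVal q x < 1 := by
  rw [ValuationSubring.mem_nonunits_iff_or]
  rcases eq_or_ne x 0 with rfl | hx
  · simp
  · rw [← qVal_le_one_iff, map_inv₀]
    have hpos : 0 < qVal q x := zero_lt_iff.mpr ((Valuation.ne_zero_iff _).mpr hx)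
    constructor
    · rintro (h | h)
      · exact absurd h hx
      · by_contra hlt
        rw [not_lt] at hlt
        exact h (inv_le_one_of_one_le₀ hlt)
    · intro h
      right
      intro hle
      have h1 : 1 ≤ qVal q x := (inv_le_one₀ hpos).1 hle
      exact absurd h (not_lt.2 h1)

/-- Every unit of `ℚ̄` at `padicPlace q` is congruent to a root of unity lying in an unramified
extension `unramExt q E f` of `E`. -/
theorem exists_rootOfUnity_near {E : IntermediateField ℚ Qb} (hE : IsLocalFinite q E) {x : Qb}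
    (hx1 : qVal q x = 1) :
    ∃ (f : ℕ) (ζ : Qb), 0 < f ∧ ζ ^ (resCard q E ^ f - 1) = 1 ∧ qVal q (ζ - x) < 1 := by
  haveI := Fermat.Agent.H81.isAlgebraic_rat_Qbar
  have hxint : IsIntegral ℚ x := (Algebra.IsAlgebraic.isAlgebraic (R := ℚ) x).isIntegral
  haveI : FiniteDimensional ℚ (IntermediateField.adjoin ℚ {x}) :=
    IntermediateField.adjoin.finiteDimensional hxint
  obtain ⟨F₀, hF₀, hle⟩ := hE.exists_le_sup
  haveI := hF₀
  have hEE' : E ≤ E ⊔ IntermediateField.adjoin ℚ {x} := le_sup_left
  have hE' : IsLocalFinite q (E ⊔ IntermediateField.adjoin ℚ {x}) := by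
    refine ⟨hE.le.trans hEE', F₀ ⊔ IntermediateField.adjoin ℚ {x},
      IntermediateField.finiteDimensional_sup _ _, ?_⟩
    refine sup_le (hle.trans (sup_le le_sup_left (le_sup_left.trans le_sup_right))) ?_
    exact le_sup_right.trans le_sup_right
  have hxE' : x ∈ E ⊔ IntermediateField.adjoin ℚ {x} :=
    (le_sup_right : IntermediateField.adjoin ℚ {x} ≤ _)
      (IntermediateField.mem_adjoin_simple_self ℚ x)
  obtain ⟨f, hf, hQ', -⟩ := exists_frob_unramExt_baseChange hEE' hE hE'
  obtain ⟨a, ha, hax⟩ := exists_root_near (residueDatum_qbar hE') (henselK_qbar hE')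
    (x := ⟨x, hxE'⟩) hx1
  refine ⟨f, (a : Qb), hf, ?_, hax⟩
  rw [← hQ']
  exact ha

/-- An element of `G_E` fixing all the unramified extensions `unramExt q E m`, `m > 0`, lies in
the inertia group of `padicPlace q`. -/
theorem mem_inertia_of_fixes_unramExt {E : IntermediateField ℚ Qb} (hE : IsLocalFinite q E)
    {g : GQ} (hg : g ∈ E.fixingSubgroup)
    (hfix : ∀ m : ℕ, 0 < m → ∀ y ∈ unramExt q E m, g y = y) :
    g ∈ (padicPlace q).inertiaSubgroupIn ℚ := by
  have hdec : g ∈ Dq q := fixingSubgroup_le_of_localField_le q hE.le hg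
  refine Fermat.Agent.H79.mem_inertiaSubgroupIn_of_forall (padicPlace q) g hdec fun x hx => ?_
  rw [mem_nonunits_padicPlace_iff]
  have hx' : qVal q x ≤ 1 := hx
  rcases lt_or_eq_of_le hx' with hlt | heq
  · refine lt_of_le_of_lt (Valuation.map_sub _ _ _) (max_lt ?_ hlt)
    rw [qVal_of_mem_decompositionSubgroup q hdec]
    exact hlt
  · obtain ⟨f, ζ, hf, hζ, hζx⟩ := exists_rootOfUnity_near hE heq
    have hζmem : ζ ∈ unramExt q E f :=
      IntermediateField.subset_adjoin E _ hζ
    have hgζ : g ζ = ζ := hfix f hf ζ hζmem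
    have h1 : g x - x = (ζ - x) - g (ζ - x) := by
      rw [map_sub, hgζ]; ring
    rw [h1]
    refine lt_of_le_of_lt (Valuation.map_sub _ _ _) (max_lt hζx ?_)
    rw [qVal_of_mem_decompositionSubgroup q hdec]
    exact hζx

end Qbar

end Fermat.Agent.H49.TR
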