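import Mathlib
import Fermat.Agent.H49.TR.InertiaKey
import Fermat.Agent.H75.Inf2Galois

/-!
# P-CFT / RECIP-Q, row TR-UNRTRIV (helper49), part 2: open subgroups containing inertia

`exists_unramExt_le` : if `N ≤ G_ℚ` is a subgroup containing `Gal(ℚ̄/F₀)` for a number field
`F₀` and the inertia group of `padicPlace q`, then for some `m > 0` every element of `G_E`
(`E` a finite extension of `K_v`) fixing `unramExt q E m` lies in `N`.
-/

set_option autoImplicit false
set_option linter.style.haveILetI false
set_option maxSynthPendingDepth 3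

namespace Fermat.Agent.H49.TR

open IntermediateField Fermat.Agent.H49.Unram Fermat.Agent.H81.Local

local notation "Qb" => AlgebraicClosure ℚ
local notation "GQ" => (AlgebraicClosure ℚ ≃ₐ[ℚ] AlgebraicClosure ℚ)

variable {q : ℕ} [Fact q.Prime]

/-- An open subgroup of `G_ℚ` containing the inertia group at `q` contains the kernel of the
restriction of `G_E` to some unramified extension of `E`. -/
theorem exists_unramExt_le {E : IntermediateField ℚ Qb} (hE : IsLocalFinite q E)
    (N : Subgroup GQ) (F₀ : IntermediateField ℚ Qb) [FiniteDimensional ℚ F₀]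
    (hF₀ : F₀.fixingSubgroup ≤ N) (hI : (padicPlace q).inertiaSubgroupIn ℚ ≤ N) :
    ∃ m : ℕ, 0 < m ∧ ∀ g ∈ E.fixingSubgroup, (∀ y ∈ unramExt q E m, g y = y) → g ∈ N := by
  classical
  haveI := Fermat.Agent.H81.isGalois_rat_Qbar
  have hopen : IsOpen (N : Set GQ) :=
    Subgroup.isOpen_mono hF₀ (IntermediateField.fixingSubgroup_isOpen F₀)
  have hclosed : IsClosed (N : Set GQ) := Subgroup.isClosed_of_isOpen N hopen
  have hfix : (IntermediateField.fixedField N).fixingSubgroup = N :=
    InfiniteGalois.fixingSubgroup_fixedField (⟨N, hclosed⟩ : ClosedSubgroup GQ)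
  have hKF₀ : IntermediateField.fixedField N ≤ F₀ := by
    intro x hx
    rw [← InfiniteGalois.fixedField_fixingSubgroup F₀, IntermediateField.mem_fixedField_iff]
    intro σ hσ
    exact (IntermediateField.mem_fixedField_iff N x).1 hx σ (hF₀ hσ)
  haveI hKfd : FiniteDimensional ℚ (IntermediateField.fixedField N) :=
    FiniteDimensional.of_injective (IntermediateField.inclusion hKF₀).toLinearMap
      (IntermediateField.inclusion_injective hKF₀)
  -- each element of the fixed field of `N` lies in some unramified extension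
  have hmem : ∀ x ∈ IntermediateField.fixedField N, ∃ m : ℕ, 0 < m ∧ x ∈ unramExt q E m := by
    intro x hx
    have hxinf : x ∈ (⨆ m : ℕ, unramExt q E (m + 1) : IntermediateField E Qb) := by
      apply Fermat.Agent.H75.Inf2.mem_of_fixed E _ x
      intro g hg
      have hgI : (g : GQ) ∈ (padicPlace q).inertiaSubgroupIn ℚ := by
        apply mem_inertia_of_fixes_unramExt hE g.2
        intro m hm y hy
        obtain ⟨k, rfl⟩ : ∃ k, m = k + 1 := ⟨m - 1, by omega⟩
        exact hg ⟨y, (le_iSup (fun m : ℕ => unramExt q E (m + 1)) k) hy⟩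
      exact (IntermediateField.mem_fixedField_iff N x).1 hx _ (hI hgI)
    obtain ⟨s, hs⟩ := IntermediateField.exists_finset_of_mem_iSup hxinf
    refine ⟨∏ m ∈ s, (m + 1), Finset.prod_pos (fun m _ => Nat.succ_pos m), ?_⟩
    have hle : (⨆ m ∈ s, unramExt q E (m + 1)) ≤ unramExt q E (∏ m ∈ s, (m + 1)) :=
      iSup₂_le fun m hm => unramExt_mono E (Finset.dvd_prod_of_mem _ hm)
    exact hle hs
  -- a basis of the fixed field of `N`
  let b := Module.finBasis ℚ (IntermediateField.fixedField N)
  choose! mfun hmfun using hmem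
  have hMpos : 0 < ∏ i, mfun (b i : Qb) := Finset.prod_pos fun i _ => (hmfun _ (b i).2).1
  refine ⟨∏ i, mfun (b i : Qb), hMpos, fun g hg hgfix => ?_⟩
  rw [← hfix, IntermediateField.mem_fixingSubgroup_iff]
  intro x hx
  have hb : ∀ i, g (b i : Qb) = b i := fun i =>
    hgfix _ (unramExt_mono E (Finset.dvd_prod_of_mem _ (Finset.mem_univ i))
      (hmfun _ (b i).2).2)
  have hx' : (⟨x, hx⟩ : IntermediateField.fixedField N) = ∑ i, (b.repr ⟨x, hx⟩ i) • b i :=
    (b.sum_repr _).symm
  have hx'' : x = ∑ i, (b.repr ⟨x, hx⟩ i) • (b i : Qb) := by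
    have := congrArg (fun y : IntermediateField.fixedField N => (y : Qb)) hx'
    simp only [IntermediateField.coe_sum, IntermediateField.coe_smul] at this
    exact this
  rw [hx'']
  simp only [map_sum, map_rat_smul, hb]

end Fermat.Agent.H49.TR
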