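import Mathlib
import Fermat.Agent.H49.TR.UnramLevel
import Fermat.Agent.H25.Recip.TraceInterfaces
import Fermat.Agent.H75.Inf2Finite
import Fermat.Agent.H81.Local.Infl
import Fermat.Agent.H61.CFT.UnramBrauer

/-!
# P-CFT / RECIP-Q, row TR-UNRTRIV (helper49), part 3: unramified classes with unit values are
trivial

* `exists_infl_eq` : a 2-cocycle of `G_E` with values in `Uˣ`, right-invariant under
  `Gal(ℚ̄/U)`, `U / E` normal, is inflated from a 2-cocycle of `Gal(U/E)`;
* `unramTrivTR : UnramCocycleStatement → Fermat.Agent.H25.Recip.UnramTrivStatement`.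
-/

set_option autoImplicit false
set_option linter.style.haveILetI false
set_option maxSynthPendingDepth 3
set_option synthInstance.maxHeartbeats 400000

namespace Fermat.Agent.H49.TR

open IntermediateField Fermat.Agent.H49.Unram Fermat.Agent.H81.Local Fermat.Agent.H78.CFT
  Fermat.Agent.H75.Inf2 Fermat.Agent.H61.CFT groupCohomology

local notation "GQ" => (AlgebraicClosure ℚ ≃ₐ[ℚ] AlgebraicClosure ℚ)

set_option maxHeartbeats 1000000 in
/-- Descent of a 2-cocycle of `G_E` to `Gal(U/E)`. -/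
theorem exists_infl_eq (E : IntermediateField ℚ Qb) (U : IntermediateField E Qb) [Normal E U]
    (c : E.fixingSubgroup × E.fixingSubgroup → Qbˣ) (hcoc : IsMulCocycle₂E E c)
    (hinv : ∀ g h n m : E.fixingSubgroup, resEF E U n = 1 → resEF E U m = 1 →
      c (g * n, h * m) = c (g, h))
    (hval : ∀ p, ((c p : Qbˣ) : Qb) ∈ U) :
    ∃ c' : (U ≃ₐ[E] U) × (U ≃ₐ[E] U) → Uˣ, IsMulCocycle₂ c' ∧ inflE E U c' = c ∧
      ∀ p, ∃ p', Units.map (algebraMap U Qb : U →* Qb) (c' p) = c p' := by
  classical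
  have hsurj := Fermat.Agent.H75.Inf2.resEF_surjective E U
  let lift : (U ≃ₐ[E] U) → E.fixingSubgroup := Function.surjInv hsurj
  have hlift : ∀ σ, resEF E U (lift σ) = σ := Function.surjInv_eq hsurj
  let c' : (U ≃ₐ[E] U) × (U ≃ₐ[E] U) → Uˣ := fun p =>
    unitOfMem U (c (lift p.1, lift p.2)) (hval _)
  have hcongr : ∀ g g' h h' : E.fixingSubgroup, resEF E U g = resEF E U g' →
      resEF E U h = resEF E U h' → c (g', h') = c (g, h) := by
    intro g g' h h' hg hh
    have h1 : resEF E U (g⁻¹ * g') = 1 := by rw [map_mul, map_inv, hg, inv_mul_cancel]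
    have h2 : resEF E U (h⁻¹ * h') = 1 := by rw [map_mul, map_inv, hh, inv_mul_cancel]
    have := hinv g h _ _ h1 h2
    simpa using this
  have hinfl : ∀ g h : E.fixingSubgroup,
      Units.map (algebraMap U Qb : U →* Qb) (c' (resEF E U g, resEF E U h)) = c (g, h) := by
    intro g h
    simp only [c', map_unitOfMem]
    exact hcongr g _ h _ (hlift _).symm (hlift _).symm
  refine ⟨c', ?_, ?_, fun p => ⟨(lift p.1, lift p.2), map_unitOfMem U _ _⟩⟩
  · intro σ τ υ
    have hinj : Function.Injective (Units.map (algebraMap U Qb : U →* Qb)) :=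
      Units.map_injective (algebraMap U Qb).injective
    apply hinj
    have e1 : resEF E U (lift σ * lift τ) = σ * τ := by rw [map_mul, hlift, hlift]
    have e2 : resEF E U (lift τ * lift υ) = τ * υ := by rw [map_mul, hlift, hlift]
    have a1 := hinfl (lift σ * lift τ) (lift υ)
    have a2 := hinfl (lift σ) (lift τ)
    have a3 := hinfl (lift τ) (lift υ)
    have a4 := hinfl (lift σ) (lift τ * lift υ)
    rw [e1, hlift] at a1
    rw [hlift, hlift] at a2 a3
    rw [hlift, e2] at a4
    have a5 : Units.map (algebraMap U Qb : U →* Qb) (σ • c' (τ, υ)) =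
        actU (lift σ : Qb ≃ₐ[ℚ] Qb) (c (lift τ, lift υ)) := by
      rw [← a3]
      apply Units.ext
      show ((σ (c' (τ, υ) : U) : U) : Qb) = (lift σ : Qb ≃ₐ[ℚ] Qb) ((c' (τ, υ) : U) : Qb)
      rw [← Fermat.Agent.H75.Inf2.resEF_apply, hlift]
    rw [map_mul, map_mul, a1, a2, a5, a4]
    exact hcoc (lift σ) (lift τ) (lift υ)
  · funext ⟨g, h⟩
    exact hinfl g h

/-- The value of a product of units of value `1` is `1`. -/
theorem qVal_prod_eq_one {q : ℕ} [Fact q.Prime] {E : IntermediateField ℚ Qb}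
    (U : IntermediateField E Qb) (s : Finset ℕ) (f : ℕ → Uˣ)
    (hf : ∀ k, qVal q (((f k : Uˣ) : U) : Qb) = 1) :
    qVal q ((((∏ k ∈ s, f k : Uˣ) : Uˣ) : U) : Qb) = 1 := by
  classical
  induction s using Finset.induction_on with
  | empty => simp
  | insert a s ha ih =>
    rw [Finset.prod_insert ha, Units.val_mul, MulMemClass.coe_mul, map_mul, hf a, ih, one_mul]

set_option maxHeartbeats 1600000 in
/-- **[TR-UNRTRIV]** unramified classes with unit values are trivial. -/
theorem unramTrivTR (hstd : UnramCocycleStatement) :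
    Fermat.Agent.H25.Recip.UnramTrivStatement := by
  intro q _ E hE c hcoc hN hval
  obtain ⟨N, hNn, ⟨F₀, hF₀fd, hF₀N⟩, hI, hinv⟩ := hN
  haveI := hF₀fd
  obtain ⟨m, hm, hker⟩ := exists_unramExt_le hE N F₀ hF₀N hI
  obtain ⟨φ, hφ⟩ := exists_isFrobE hE hm
  haveI hfd : FiniteDimensional E (unramExt q E m) := hφ.finiteDimensional
  haveI hgal : IsGalois E (unramExt q E m) := hφ.isGalois
  -- the kernel of the restriction lies in `N`
  have hkerN : ∀ g : E.fixingSubgroup, resEF E (unramExt q E m) g = 1 → (g : GQ) ∈ N := by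
    intro g hg
    refine hker g g.2 fun y hy => ?_
    exact (Fermat.Agent.H75.Inf2.resEF_eq_one_iff E _ g).1 hg ⟨y, hy⟩
  -- the values are fixed by `N ∩ G_E`
  have hact1 : ∀ u : Qbˣ, actU ((1 : E.fixingSubgroup) : GQ) u = u := by
    intro u
    apply Units.ext
    rw [coe_actU]
    rfl
  have hc1 : ∀ h j : E.fixingSubgroup, c (1, h * j) = c (1, h) := by
    intro h j
    have h0 := hcoc 1 h j
    rw [one_mul, hact1] at h0
    exact (mul_left_cancel h0).symm
  have hc1' : ∀ h : E.fixingSubgroup, c (1, h) = c (1, 1) := by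
    intro h
    have h0 := hc1 1 h
    rwa [one_mul] at h0
  have hfixval : ∀ n : E.fixingSubgroup, (n : GQ) ∈ N → ∀ h j : E.fixingSubgroup,
      actU (n : GQ) (c (h, j)) = c (h, j) := by
    intro n hn h j
    have h0 := hcoc n h j
    have hconj : ((h⁻¹ * n * h : E.fixingSubgroup) : GQ) ∈ N := by
      have h1 := hNn.conj_mem (n : GQ) hn ((h : GQ)⁻¹)
      rw [inv_inv] at h1
      exact h1
    have e1 : c (n * h, j) = c (h, j) := by
      have h1 := hinv h j (h⁻¹ * n * h) 1 hconj N.one_mem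
      rw [mul_one] at h1
      rw [← h1]
      congr 2
      group
    have e2 : ∀ k : E.fixingSubgroup, c (n, k) = c (1, 1) := by
      intro k
      have h1 := hinv 1 k n 1 hn N.one_mem
      rw [one_mul, mul_one] at h1
      rw [h1, hc1']
    rw [e1, e2 h, e2 (h * j)] at h0
    exact (mul_right_cancel h0).symm
  have hvalU : ∀ p, ((c p : Qbˣ) : Qb) ∈ unramExt q E m := by
    rintro ⟨h, j⟩
    apply Fermat.Agent.H75.Inf2.mem_of_fixed E (unramExt q E m)
    intro g hg
    have hgN : (g : GQ) ∈ N := hker g g.2 fun y hy => hg ⟨y, hy⟩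
    exact congrArg (fun u : Qbˣ => (u : Qb)) (hfixval g hgN h j)
  obtain ⟨c', hc', hinfl, hc'val⟩ := exists_infl_eq E (unramExt q E m) c hcoc
    (fun g h n n' hn hn' => hinv g h n n' (hkerN n hn) (hkerN n' hn')) hvalU
  -- the cyclic group `Gal(U/E)`
  have hgen : IsGen φ := isGen_of_forall_mem_zpowers hφ.gen
  have hfix : φ • cocInv φ c' = cocInv φ c' := smul_cocInv hc'
  obtain ⟨a₀, ha₀⟩ := exists_unitsIncl_of_fixed hgen hfix
  have hcob : IsMulCoboundary₂ (fun p => c' p / stdCocycle φ (cocInv φ c') p) := by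
    refine ⟨fun x => cocY φ c' (dlog φ x), fun x y => ?_⟩
    have h1 := cocycle_eq_cocY hc' (g := φ) (dlog φ x) (dlog φ y)
    rw [hgen.pow_dlog, hgen.pow_dlog] at h1
    have h2 := cocY_eq φ c' (dlog φ x + dlog φ y)
    simp only [stdCocycle_apply]
    rw [hgen.dlog_mul, h1, h2]
    exact cg_id3 _ _ _ _
  -- the invariant is a unit
  have hc'1 : ∀ p, qVal q (((c' p : (unramExt q E m)ˣ) : unramExt q E m) : Qb) = 1 := by
    intro p
    obtain ⟨p', hp'⟩ := hc'val p
    have h1 := congrArg (fun u : Qbˣ => (u : Qb)) hp'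
    have h2 : (((c' p : (unramExt q E m)ˣ) : unramExt q E m) : Qb) = ((c p' : Qbˣ) : Qb) := h1
    rw [h2]
    exact hval p'
  have hqa : qVal q (((a₀ : E) : Qb)) = 1 := by
    have h1 : (((a₀ : E) : Qb)) =
        (((cocInv φ c' : (unramExt q E m)ˣ) : unramExt q E m) : Qb) := by
      rw [← ha₀]; rfl
    rw [h1]
    exact qVal_prod_eq_one (unramExt q E m) _ (fun k => c' (φ ^ k, φ)) (fun k => hc'1 _)
  obtain ⟨π, hπ⟩ := exists_unif_unit hE
  have hlvl2 : IsLvlMulCoboundary₂E E (unramCocycle q E m φ a₀) :=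
    (hstd q E hE m φ hφ π a₀ 0 hπ (by rw [zpow_zero]; exact hqa)).2 (dvd_zero _)
  have hlvl1 := Fermat.Agent.H81.Local.inflCoboundary E (unramExt q E m) _ hcob
  have hmul := hlvl1.mul hlvl2
  have heq : (fun x => inflE E (unramExt q E m)
      (fun p => c' p / stdCocycle φ (cocInv φ c') p) x * unramCocycle q E m φ a₀ x) = c := by
    funext x
    rw [← hinfl]
    simp only [unramCocycle, inflE]
    rw [← map_mul]
    congr 1
    have h1 : unitOfE q E m a₀ = cocInv φ c' := ha₀
    rw [h1, div_mul_cancel]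
  rw [heq] at hmul
  exact hmul

end Fermat.Agent.H49.TR
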